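import Mathlib
import Fermat.Agent.LT.T6.H385.QuatSpec
import Fermat.Agent.LT.H129.HenselQuad

/-!
# Row LT, tower T6, sub-leaf T6.18i.2 `SqrtNearC385` (helper497) -- OFF-MAIN

`sqrtNearC497 : H385.SqrtNearC385` (VERBATIM the Prop of `LT/T6/H385/QuatSpec.lean`).

For `γ ∈ GL₂(k)` in a small `χ`-ball around `(2z, z²)` the matrix `u = z⁻¹ γ` has a square root
`w = a + b γ ∈ k[γ]` with `tr w`, `det w` as close to `(2, 1)` as we want.

Proof (no Newton iteration in the 2-dimensional algebra; two scalar square roots):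
`T = tr u`, `Δ = det u`.  `D = √Δ` near `1` (Hensel for `X² - Δ` at `1`, needs `|Δ - 1| < |2|²`),
`τ = √(T + 2 D)` near `2` (Hensel for `X² - (T + 2D)` at `2`, needs `|T + 2D - 4| < |4|²`),
`w = (u + D) / τ`.  Cayley--Hamilton: `(u + D)² = (T + 2 D) u = τ² u`, `tr w = τ`, `det w = D`.
Hensel's lemma for quadratics: `H129.hensel_quad129` (helper129, byte-identical copy).
-/

set_option autoImplicit false

open scoped Matrix

noncomputable section

namespace Fermat.Agent.LT.T6.H497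

open Fermat.Agent.LT.T6 Fermat.Agent.LT.T6.H783 Fermat.Agent.LT.T6.H385 Fermat.Agent.LT.H129

variable {k : Type} [Field k]

/-! ## Algebra of `2 × 2` matrices -/

/-- Cayley--Hamilton for `2 × 2` matrices. -/
theorem mul_self_eq497 (g : Matrix (Fin 2) (Fin 2) k) :
    g * g = g.trace • g - g.det • (1 : Matrix (Fin 2) (Fin 2) k) := by
  ext i j
  fin_cases i <;> fin_cases j <;>
    simp [Matrix.mul_apply, Fin.sum_univ_two, Matrix.trace_fin_two, Matrix.det_fin_two] <;> ring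

/-- The trace of `a + b g`. -/
theorem trace_lin497 (a b : k) (g : Matrix (Fin 2) (Fin 2) k) :
    (a • (1 : Matrix (Fin 2) (Fin 2) k) + b • g).trace = 2 * a + b * g.trace := by
  simp [Matrix.trace_fin_two]
  ring

/-- The determinant of `a + b g`. -/
theorem det_lin497 (a b : k) (g : Matrix (Fin 2) (Fin 2) k) :
    (a • (1 : Matrix (Fin 2) (Fin 2) k) + b • g).det
      = a ^ 2 + a * b * g.trace + b ^ 2 * g.det := by
  simp [Matrix.det_fin_two, Matrix.trace_fin_two]
  ring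

/-- The square of `a + b g`. -/
theorem sq_lin497 (a b : k) (g : Matrix (Fin 2) (Fin 2) k) :
    (a • (1 : Matrix (Fin 2) (Fin 2) k) + b • g) * (a • (1 : Matrix (Fin 2) (Fin 2) k) + b • g)
      = (a ^ 2 - b ^ 2 * g.det) • (1 : Matrix (Fin 2) (Fin 2) k)
        + (2 * a * b + b ^ 2 * g.trace) • g := by
  have h := mul_self_eq497 g
  have e : (a • (1 : Matrix (Fin 2) (Fin 2) k) + b • g)
      * (a • (1 : Matrix (Fin 2) (Fin 2) k) + b • g)
      = (a ^ 2) • (1 : Matrix (Fin 2) (Fin 2) k) + (2 * a * b) • g + (b ^ 2) • (g * g) := by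
    simp only [add_mul, mul_add, Matrix.smul_mul, Matrix.mul_smul, Matrix.one_mul,
      Matrix.mul_one, smul_smul]
    have e1 : (b * a) • g = (a * b) • g := by rw [mul_comm]
    rw [e1]
    have e2 : (2 * a * b) • g = (a * b) • g + (a * b) • g := by
      rw [← add_smul]; congr 1; ring
    rw [e2, pow_two, pow_two]
    abel
  rw [e, h, smul_sub, smul_smul, smul_smul, sub_smul, add_smul]
  abel

/-! ## Scalar square roots (Hensel) -/

section Hensel

variable [Valued k Γ₀] [CompleteSpace k]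

/-- Square roots near `1`. -/
theorem sqrt_near_one497 (x : k) (h : Valued.v (1 - x) < Valued.v (2 : k) ^ 2) :
    ∃ y : k, y ^ 2 = x ∧ Valued.v (y - 1) * Valued.v (2 : k) ≤ Valued.v (1 - x) := by
  have h' : Valued.v ((1 : k) ^ 2 - 0 * 1 + -x) < Valued.v (2 * (1 : k) - 0) ^ 2 := by
    have e1 : (1 : k) ^ 2 - 0 * 1 + -x = 1 - x := by ring
    have e2 : 2 * (1 : k) - 0 = 2 := by ring
    rw [e1, e2]; exact h
  obtain ⟨y, hy, hle⟩ := hensel_quad129 (0 : k) (-x) 1 h'
  refine ⟨y, ?_, ?_⟩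
  · have : y ^ 2 - x = 0 := by
      have e : y ^ 2 - 0 * y + -x = y ^ 2 - x := by ring
      rw [← e]; exact hy
    exact sub_eq_zero.mp this
  · have e1 : (1 : k) ^ 2 - 0 * 1 + -x = 1 - x := by ring
    have e2 : 2 * (1 : k) - 0 = 2 := by ring
    rw [e1, e2] at hle
    exact hle

/-- Square roots near `2` (of elements near `4`). -/
theorem sqrt_near_two497 (x : k) (h : Valued.v (4 - x) < Valued.v (4 : k) ^ 2) :
    ∃ y : k, y ^ 2 = x ∧ Valued.v (y - 2) * Valued.v (4 : k) ≤ Valued.v (4 - x) := by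
  have h' : Valued.v ((2 : k) ^ 2 - 0 * 2 + -x) < Valued.v (2 * (2 : k) - 0) ^ 2 := by
    have e1 : (2 : k) ^ 2 - 0 * 2 + -x = 4 - x := by ring
    have e2 : 2 * (2 : k) - 0 = 4 := by ring
    rw [e1, e2]; exact h
  obtain ⟨y, hy, hle⟩ := hensel_quad129 (0 : k) (-x) 2 h'
  refine ⟨y, ?_, ?_⟩
  · have : y ^ 2 - x = 0 := by
      have e : y ^ 2 - 0 * y + -x = y ^ 2 - x := by ring
      rw [← e]; exact hy
    exact sub_eq_zero.mp this
  · have e1 : (2 : k) ^ 2 - 0 * 2 + -x = 4 - x := by ring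
    have e2 : 2 * (2 : k) - 0 = 4 := by ring
    rw [e1, e2] at hle
    exact hle

end Hensel

/-! ## Valuation bookkeeping in `ℤᵐ⁰` -/

section Val

variable [Valued k Γ₀]

theorem val_two_le_one497 : Valued.v (2 : k) ≤ 1 := by
  have : (2 : k) = 1 + 1 := by norm_num
  rw [this]
  exact le_trans (Valuation.map_add _ _ _) (by simp)

/-- `|x / y| ≤ exp (m - n)` from `|x| ≤ exp m` and `|y| = exp n`. -/
theorem val_div_le497 {x y : k} {m n : ℤ} (hx : Valued.v x ≤ WithZero.exp m)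
    (hy : Valued.v y = WithZero.exp n) : Valued.v (x / y) ≤ WithZero.exp (m - n) := by
  rw [map_div₀, hy, WithZero.exp_sub, div_eq_mul_inv, div_eq_mul_inv]
  exact mul_le_mul_left hx _

/-- From `|x| · exp n ≤ exp m`: `|x| ≤ exp (m - n)`. -/
theorem val_le_of_mul_le497 {x : k} {m n : ℤ}
    (h : Valued.v x * WithZero.exp n ≤ WithZero.exp m) :
    Valued.v x ≤ WithZero.exp (m - n) := by
  rw [WithZero.exp_sub, le_div_iff₀ WithZero.exp_pos]
  exact h

end Val

/-! ## The leaf -/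

/-- **T6.18i.2 `SqrtNearC385`**, unconditional. -/
theorem sqrtNearC497 : SqrtNearC385 := by
  intro k _ _ q hk z hz M
  have := hk.complete
  have := hk.char0
  have h2 : (2 : k) ≠ 0 := two_ne_zero
  have hv2 : Valued.v (2 : k) ≠ 0 := (Valuation.ne_zero_iff _).mpr h2
  have hvz : Valued.v z ≠ 0 := (Valuation.ne_zero_iff _).mpr hz
  obtain ⟨L2, e2⟩ : ∃ L2 : ℤ, Valued.v (2 : k) = WithZero.exp L2 :=
    ⟨WithZero.log (Valued.v (2 : k)), (WithZero.exp_log hv2).symm⟩
  obtain ⟨Lz, ez⟩ : ∃ Lz : ℤ, Valued.v z = WithZero.exp Lz :=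
    ⟨WithZero.log (Valued.v z), (WithZero.exp_log hvz).symm⟩
  have hL2 : L2 ≤ 0 := by
    have h := val_two_le_one497 (k := k)
    rw [e2, ← WithZero.exp_zero, WithZero.exp_le_exp] at h
    exact h
  have e4 : Valued.v (4 : k) = WithZero.exp (2 * L2) := by
    have : (4 : k) = 2 * 2 := by norm_num
    rw [this, map_mul, e2, ← WithZero.exp_add]
    congr 1; ring
  have ez2 : Valued.v (z ^ 2) = WithZero.exp (2 * Lz) := by
    rw [pow_two, map_mul, ez, ← WithZero.exp_add]
    congr 1; ring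
  have a1 := le_abs_self Lz
  have a2 := neg_abs_le Lz
  have a3 := neg_abs_le L2
  have a4 := abs_nonneg Lz
  have a5 := abs_nonneg L2
  have hM0 : (0 : ℤ) ≤ (M : ℤ) := Int.natCast_nonneg M
  -- the radius
  refine ⟨(M : ℤ) + 2 * |Lz| + 4 * |L2| + 1, ?_⟩
  set N : ℤ := (M : ℤ) + 2 * |Lz| + 4 * |L2| + 1 with hN
  intro γ hγ
  obtain ⟨htr, hdet⟩ := hγ
  set G : Matrix (Fin 2) (Fin 2) k := (γ : Matrix (Fin 2) (Fin 2) k) with hG
  set t : k := G.trace with ht
  set d : k := G.det with hd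
  have hd0 : d ≠ 0 := Matrix.GeneralLinearGroup.det_ne_zero γ
  have hz2 : z ^ 2 ≠ 0 := pow_ne_zero 2 hz
  -- the normalised invariants
  set T : k := t / z with hT
  set Δ : k := d / z ^ 2 with hΔ
  have hΔ0 : Δ ≠ 0 := div_ne_zero hd0 hz2
  have bT : Valued.v (T - 2) ≤ WithZero.exp (-N - Lz) := by
    have e : T - 2 = (t - 2 * z) / z := by rw [hT]; field_simp
    rw [e]
    exact val_div_le497 htr ez
  have bΔ : Valued.v (1 - Δ) ≤ WithZero.exp (-N - 2 * Lz) := by
    have e : 1 - Δ = -((d - z ^ 2) / z ^ 2) := by rw [hΔ]; field_simp; ring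
    rw [e, Valuation.map_neg]
    exact val_div_le497 hdet ez2
  -- Step 1: `D = √Δ` near `1`
  have c1 : Valued.v (1 - Δ) < Valued.v (2 : k) ^ 2 := by
    refine lt_of_le_of_lt bΔ ?_
    rw [e2, pow_two, ← WithZero.exp_add, WithZero.exp_lt_exp]
    omega
  obtain ⟨D, hD, hDle⟩ := sqrt_near_one497 Δ c1
  have hD0 : D ≠ 0 := by
    intro h
    rw [h] at hD
    exact hΔ0 (by rw [← hD]; ring)
  have b2D : Valued.v (2 * (D - 1)) ≤ WithZero.exp (-N - 2 * Lz) := by
    rw [map_mul, mul_comm]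
    exact le_trans hDle bΔ
  have bD : Valued.v (D - 1) ≤ WithZero.exp (-N - 2 * Lz - L2) := by
    apply val_le_of_mul_le497
    rw [← e2]
    exact le_trans hDle bΔ
  -- Step 2: `τ = √(T + 2 D)` near `2`
  set S : k := T + 2 * D with hS
  have bS : Valued.v (4 - S) ≤ WithZero.exp (-N + 2 * |Lz|) := by
    have e : 4 - S = -((T - 2) + 2 * (D - 1)) := by rw [hS]; ring
    rw [e, Valuation.map_neg]
    refine le_trans (Valuation.map_add _ _ _) (max_le ?_ ?_)
    · refine le_trans bT ?_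
      rw [WithZero.exp_le_exp]; omega
    · refine le_trans b2D ?_
      rw [WithZero.exp_le_exp]; omega
  have c2 : Valued.v (4 - S) < Valued.v (4 : k) ^ 2 := by
    refine lt_of_le_of_lt bS ?_
    rw [e4, pow_two, ← WithZero.exp_add, WithZero.exp_lt_exp]
    omega
  obtain ⟨τ, hτ, hτle⟩ := sqrt_near_two497 S c2
  have bτ : Valued.v (τ - 2) ≤ WithZero.exp (-N + 2 * |Lz| - 2 * L2) := by
    apply val_le_of_mul_le497
    rw [← e4]
    exact le_trans hτle bS
  have hτ0 : τ ≠ 0 := by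
    intro h
    rw [h] at hτ
    have hS0 : S = 0 := by rw [← hτ]; ring
    rw [hS0, sub_zero, e4, pow_two, ← WithZero.exp_add, WithZero.exp_lt_exp] at c2
    omega
  -- Step 3: `w = (u + D) / τ`
  set a : k := D / τ with ha
  set b : k := 1 / (τ * z) with hb
  set W : Matrix (Fin 2) (Fin 2) k := a • (1 : Matrix (Fin 2) (Fin 2) k) + b • G with hW
  have htd : t = T * z := by rw [hT]; field_simp
  have hdd : d = Δ * z ^ 2 := by rw [hΔ]; field_simp
  have hSτ : T = τ ^ 2 - 2 * D := by rw [hτ, hS]; ring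
  have hWtr : W.trace = τ := by
    rw [hW, trace_lin497, ← ht, htd, hSτ, ha, hb]
    field_simp
    ring
  have hWdet : W.det = D := by
    rw [hW, det_lin497, ← ht, ← hd, htd, hdd, hSτ, ← hD, ha, hb]
    field_simp
    ring
  have hWsq : W * W = z⁻¹ • G := by
    rw [hW, sq_lin497, ← ht, ← hd, htd, hdd, hSτ, ← hD, ha, hb]
    have e1 : (D / τ) ^ 2 - (1 / (τ * z)) ^ 2 * (D ^ 2 * z ^ 2) = 0 := by
      field_simp
      ring
    have e2' : 2 * (D / τ) * (1 / (τ * z)) + (1 / (τ * z)) ^ 2 * ((τ ^ 2 - 2 * D) * z) = z⁻¹ := by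
      field_simp
      ring
    rw [e1, e2', zero_smul, zero_add]
  have hWdet0 : W.det ≠ 0 := by rw [hWdet]; exact hD0
  refine ⟨Matrix.GeneralLinearGroup.mkOfDetNeZero W hWdet0, a, b, rfl, hWsq, ?_, ?_⟩
  · show Valued.v (W.trace - 2) ≤ WithZero.exp (-(M : ℤ))
    rw [hWtr]
    refine le_trans bτ ?_
    rw [WithZero.exp_le_exp]; omega
  · show Valued.v (W.det - 1) ≤ WithZero.exp (-(M : ℤ))
    rw [hWdet]
    refine le_trans bD ?_
    rw [WithZero.exp_le_exp]; omega

end Fermat.Agent.LT.T6.H497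

end
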