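import Mathlib
import Fermat.Agent.LT.T6.H888.ArchClassSpec
import Fermat.Agent.LT.T6.H162.SphAvgOf
import Fermat.Agent.LT.T6.H543.CartanR

/-!
# Row LT, tower T6, leaf T6.22.A2 `ProdFormC888` (helper497)

OFF-MAIN.  The product formula `T μ (t, u) = μ(t) μ(u)` of the normalised eigenvalue function of
a continuous joint eigenfunction of the circle means (weights `0, ±1`).

Proof.  `Y_t(θ) = k_θ a_t k_θ⁻¹`.  For `e(x₀) ≠ 0` compute
`I = ∫∫ e(x₀ Y_u(θ') Y_t(θ)) dθ dθ'` in two ways: (1) the eigen-equation twice gives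
`(2π)² m(t) m(u) e(x₀)`; (2) `θ = θ' + v`, Fubini, and for fixed `v` the Cartan decomposition
`a_u k_v a_t = k_α a_d k_β` (`cosh d = ρ(t, u, 2v)`) gives
`Y_u(θ') Y_t(θ' + v) = Y_d(θ' + α) k_{α + β - v}`, hence the inner integral is
`χ_n(k_{α+β-v}) · 2π · m(d) e(x₀)`, and `χ_n(k_{α+β-v}) cosh(d/2)` is the holomorphic part of
`a_u Y_t(v)` (`n = 1`), an explicit trigonometric polynomial in `2v`; its odd part integrates
to `0`.  As a by-product the normalised eigenvalue function is continuous on `[0, ∞)`.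
-/

set_option autoImplicit false

open scoped Matrix
open MeasureTheory

noncomputable section

namespace Fermat.Agent.LT.T6.H497

open Fermat.Agent.LT.T6 Fermat.Agent.LT.T6.H830 Fermat.Agent.LT.T6.H888 Fermat.Agent.LT.T6.H162
  Fermat.Agent.LT.T6.H543

/-! ## 1. The circle `Y_t(θ) = k_θ a_t k_θ⁻¹` -/

/-- `Y_t(θ) = k_θ a_t k_{-θ}`. -/
def yR497 (t θ : ℝ) : GL (Fin 2) ℝ := rotR θ * bR 0 t 0 * rotR (-θ)

theorem coe_yR497 (t θ : ℝ) :
    ((yR497 t θ : GL (Fin 2) ℝ) : Matrix (Fin 2) (Fin 2) ℝ)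
      = !![Real.cos θ, -Real.sin θ; Real.sin θ, Real.cos θ]
        * !![Real.exp (t / 2), 0; 0, Real.exp (-(t / 2))]
        * !![Real.cos θ, Real.sin θ; -Real.sin θ, Real.cos θ] := by
  unfold yR497
  rw [Units.val_mul, Units.val_mul, coe_rotR830, coe_bR830, coe_rotR830, Real.cos_neg,
    Real.sin_neg, neg_neg, mul_zero]
  have h1 : (0 + t) / 2 = t / 2 := by ring
  have h2 : (0 - t) / 2 = -(t / 2) := by ring
  rw [h1, h2]

theorem rotR_zero497 : rotR 0 = 1 := by
  apply Units.ext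
  rw [coe_rotR830, Real.cos_zero, Real.sin_zero, neg_zero]
  exact Matrix.one_fin_two.symm

theorem rotR_inv497 (θ : ℝ) : (rotR θ)⁻¹ = rotR (-θ) := by
  apply inv_eq_of_mul_eq_one_right
  rw [rotR_mul_rotR162, add_neg_cancel, rotR_zero497]

theorem bR_zero497 : bR 0 0 0 = 1 := by
  apply Units.ext
  rw [coe_bR830]
  simp [Matrix.one_fin_two]

theorem bR_mul_bR497 (t u : ℝ) : bR 0 t 0 * bR 0 u 0 = bR 0 (t + u) 0 := by
  apply Units.ext
  rw [Units.val_mul, coe_bR830, coe_bR830, coe_bR830]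
  simp
  constructor <;> rw [← Real.exp_add] <;> congr 1 <;> ring

theorem bR_inv497 (t : ℝ) : (bR 0 t 0)⁻¹ = bR 0 (-t) 0 := by
  apply inv_eq_of_mul_eq_one_right
  rw [bR_mul_bR497, add_neg_cancel, bR_zero497]

theorem continuous_rotR_val497 :
    Continuous (fun θ : ℝ => ((rotR θ : GL (Fin 2) ℝ) : Matrix (Fin 2) (Fin 2) ℝ)) := by
  apply continuous_matrix
  intro i j
  fin_cases i <;> fin_cases j <;> simp [coe_rotR830] <;> fun_prop

theorem continuous_rotR497 : Continuous rotR := by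
  rw [Units.continuous_iff]
  refine ⟨continuous_rotR_val497, ?_⟩
  have h : (fun θ : ℝ => (((rotR θ)⁻¹ : GL (Fin 2) ℝ) : Matrix (Fin 2) (Fin 2) ℝ))
      = (fun θ : ℝ => ((rotR θ : GL (Fin 2) ℝ) : Matrix (Fin 2) (Fin 2) ℝ)) ∘ (fun θ => -θ) := by
    funext θ
    rw [rotR_inv497]
    rfl
  rw [h]
  exact continuous_rotR_val497.comp continuous_neg

theorem continuous_bR_val497 :
    Continuous (fun t : ℝ => ((bR 0 t 0 : GL (Fin 2) ℝ) : Matrix (Fin 2) (Fin 2) ℝ)) := by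
  apply continuous_matrix
  intro i j
  fin_cases i <;> fin_cases j <;> simp [coe_bR830] <;> fun_prop

theorem continuous_bR497 : Continuous (fun t : ℝ => bR 0 t 0) := by
  rw [Units.continuous_iff]
  refine ⟨continuous_bR_val497, ?_⟩
  have h : (fun t : ℝ => (((bR 0 t 0)⁻¹ : GL (Fin 2) ℝ) : Matrix (Fin 2) (Fin 2) ℝ))
      = (fun t : ℝ => ((bR 0 t 0 : GL (Fin 2) ℝ) : Matrix (Fin 2) (Fin 2) ℝ)) ∘ (fun t => -t) := by
    funext t
    rw [bR_inv497]
    rfl
  rw [h]
  exact continuous_bR_val497.comp continuous_neg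

theorem continuous_yR497 : Continuous (fun p : ℝ × ℝ => yR497 p.1 p.2) := by
  unfold yR497
  exact ((continuous_rotR497.comp continuous_snd).mul (continuous_bR497.comp continuous_fst)).mul
    (continuous_rotR497.comp continuous_snd.neg)

theorem yR_periodic497 (t : ℝ) : Function.Periodic (yR497 t) (2 * Real.pi) := by
  intro θ
  unfold yR497
  have h : -(θ + 2 * Real.pi) + 2 * Real.pi = -θ := by ring
  rw [rotR_add_two_pi162, ← rotR_add_two_pi162 (-(θ + 2 * Real.pi)), h]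

theorem yR_zero497 (θ : ℝ) : yR497 0 θ = 1 := by
  unfold yR497
  rw [bR_zero497, mul_one, rotR_mul_rotR162, add_neg_cancel, rotR_zero497]

theorem inSO2_rotR497 (γ : ℝ) : InSO2 (rotR γ) := by
  refine ⟨?_, det_rotR162 γ⟩
  rw [coe_rotR830]
  have h := Real.cos_sq_add_sin_sq γ
  ext i j
  fin_cases i <;> fin_cases j <;> simp [Matrix.mul_apply, Fin.sum_univ_two]
    <;> nlinarith [h]

theorem holPart_rotR497 (γ : ℝ) : holPart (rotR γ) = Complex.exp ((γ : ℂ) * Complex.I) := by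
  have h := holPart_rotR_mul162 γ 1
  rw [mul_one] at h
  rw [h]
  have h1 : holPart (1 : GL (Fin 2) ℝ) = 1 := by
    unfold holPart
    simp
  rw [h1, mul_one]

/-! ## 2. The product `a_u k_v a_t` -/

theorem coe_prod497 (t u v : ℝ) :
    ((bR 0 u 0 * rotR v * bR 0 t 0 : GL (Fin 2) ℝ) : Matrix (Fin 2) (Fin 2) ℝ)
      = !![Real.exp (u / 2) * Real.cos v * Real.exp (t / 2),
            -(Real.exp (u / 2) * Real.sin v * Real.exp (-(t / 2)));
          Real.exp (-(u / 2)) * Real.sin v * Real.exp (t / 2),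
            Real.exp (-(u / 2)) * Real.cos v * Real.exp (-(t / 2))] := by
  rw [Units.val_mul, Units.val_mul, coe_bR830, coe_rotR830, coe_bR830]
  have h1 : ∀ x : ℝ, (0 + x) / 2 = x / 2 := fun x => by ring
  have h2 : ∀ x : ℝ, (0 - x) / 2 = -(x / 2) := fun x => by ring
  rw [h1, h2, h1, h2]
  ext i j
  fin_cases i <;> fin_cases j <;> simp [Matrix.mul_apply, Fin.sum_univ_two]

theorem det_bR497 (ζ t : ℝ) :
    ((bR ζ t 0 : GL (Fin 2) ℝ) : Matrix (Fin 2) (Fin 2) ℝ).det = Real.exp ζ := by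
  rw [coe_bR830, Matrix.det_fin_two_of, mul_zero, sub_zero, ← Real.exp_add]
  congr 1
  ring

theorem det_prod497 (t u v : ℝ) :
    ((bR 0 u 0 * rotR v * bR 0 t 0 : GL (Fin 2) ℝ) : Matrix (Fin 2) (Fin 2) ℝ).det = 1 := by
  rw [Units.val_mul, Units.val_mul, Matrix.det_mul, Matrix.det_mul, det_bR497, det_bR497,
    det_rotR162, Real.exp_zero]
  norm_num

theorem exp_eq_sq497 (t : ℝ) : Real.exp t = Real.exp (t / 2) ^ 2 := by
  rw [sq, ← Real.exp_add]
  congr 1
  ring

theorem exp_neg_eq_sq497 (t : ℝ) : Real.exp (-t) = Real.exp (-(t / 2)) ^ 2 := by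
  rw [sq, ← Real.exp_add]
  congr 1
  ring

theorem cos_two_mul497 (v : ℝ) : Real.cos (2 * v) = Real.cos v ^ 2 - Real.sin v ^ 2 := by
  rw [Real.cos_two_mul]
  have h := Real.cos_sq_add_sin_sq v
  linarith

theorem rhoR_prod497 (t u v : ℝ) :
    rhoR (bR 0 u 0 * rotR v * bR 0 t 0) = rho888 t u (2 * v) := by
  rw [rhoR_eq162, det_prod497, coe_prod497]
  unfold rho888
  rw [Real.cosh_eq, Real.cosh_eq, Real.sinh_eq, Real.sinh_eq, cos_two_mul497, exp_eq_sq497 t,
    exp_eq_sq497 u, exp_neg_eq_sq497 t, exp_neg_eq_sq497 u]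
  simp only [Matrix.of_apply, Matrix.cons_val', Matrix.cons_val_zero, Matrix.cons_val_one,
    Matrix.cons_val_fin_one, abs_one, mul_one]
  have h := Real.cos_sq_add_sin_sq v
  linear_combination ((Real.exp (t / 2) ^ 2 + Real.exp (-(t / 2)) ^ 2)
    * (Real.exp (u / 2) ^ 2 + Real.exp (-(u / 2)) ^ 2) / 4) * h

/-- The weight-one factor `W(v) = cosh(t/2) cosh(u/2) + sinh(t/2) sinh(u/2) e^{-2iv}`. -/
def wOne497 (t u v : ℝ) : ℂ :=
  ((Real.cosh (t / 2) * Real.cosh (u / 2)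
      + Real.sinh (t / 2) * Real.sinh (u / 2) * Real.cos (2 * v) : ℝ) : ℂ)
    - ((Real.sinh (t / 2) * Real.sinh (u / 2) * Real.sin (2 * v) : ℝ) : ℂ) * Complex.I

theorem cplx_aux497 (P Q c s X Z : ℝ) (hX : (P * c + Q * s) / 2 = X)
    (hZ : (P * s - Q * c) / 2 = Z) :
    (((P : ℝ) : ℂ) + ((Q : ℝ) : ℂ) * Complex.I) / 2
        * (((c : ℝ) : ℂ) + ((-s : ℝ) : ℂ) * Complex.I)
      = ((X : ℝ) : ℂ) - ((Z : ℝ) : ℂ) * Complex.I := by
  subst hX hZ
  push_cast
  linear_combination (-(Q : ℂ) * s / 2) * Complex.I_sq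

theorem holPart_prod497 (t u v : ℝ) :
    holPart (bR 0 u 0 * rotR v * bR 0 t 0) * Complex.exp (((-v : ℝ) : ℂ) * Complex.I)
      = wOne497 t u v := by
  unfold holPart wOne497
  rw [coe_prod497, Complex.exp_mul_I, ← Complex.ofReal_cos, ← Complex.ofReal_sin, Real.cos_neg,
    Real.sin_neg]
  simp only [Matrix.of_apply, Matrix.cons_val', Matrix.cons_val_zero, Matrix.cons_val_one,
    Matrix.cons_val_fin_one]
  have h := Real.cos_sq_add_sin_sq v
  refine cplx_aux497 _ _ _ _ _ _ ?_ ?_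
  · rw [cos_two_mul497, Real.cosh_eq, Real.cosh_eq, Real.sinh_eq, Real.sinh_eq]
    linear_combination ((Real.exp (t / 2) + Real.exp (-(t / 2))) / 2
      * ((Real.exp (u / 2) + Real.exp (-(u / 2))) / 2)) * h
  · rw [Real.sin_two_mul, Real.sinh_eq, Real.sinh_eq]
    ring

/-! ## 3. The Cartan decomposition of `a_u k_v a_t` -/

theorem rho_ge_one497 (t u φ : ℝ) (ht : 0 < t) (hu : 0 < u) : 1 ≤ rho888 t u φ := by
  unfold rho888
  have h1 : 0 < Real.sinh t := Real.sinh_pos_iff.2 ht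
  have h2 : 0 < Real.sinh u := Real.sinh_pos_iff.2 hu
  have h3 : -1 ≤ Real.cos φ := Real.neg_one_le_cos φ
  have h4 : 1 ≤ Real.cosh (t - u) := Real.one_le_cosh _
  rw [Real.cosh_sub] at h4
  nlinarith [mul_pos h1 h2]

theorem cartan_prod497 (t u v : ℝ) :
    ∃ α β : ℝ,
      bR 0 u 0 * rotR v * bR 0 t 0
        = rotR α * bR 0 (Real.arcosh (rho888 t u (2 * v))) 0 * rotR β ∧
      Complex.exp (((α + β - v : ℝ) : ℂ) * Complex.I)
          * ((Real.cosh (Real.arcosh (rho888 t u (2 * v)) / 2) : ℝ) : ℂ)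
        = wOne497 t u v := by
  have hdet := det_prod497 t u v
  obtain ⟨ζ, α, β, d, hd, hg⟩ := cartanRC_h543 (bR 0 u 0 * rotR v * bR 0 t 0)
    (by rw [hdet]; exact one_pos)
  have hζ : ζ = 0 := by
    have h1 := hdet
    rw [hg, det_mul_rotR162, det_rotR_mul162, det_bR497] at h1
    exact (Real.exp_eq_one_iff ζ).1 h1
  subst hζ
  have hρ : Real.arcosh (rho888 t u (2 * v)) = d := by
    rw [← rhoR_prod497, hg, rhoR_cartan162, Real.arcosh_cosh hd]
  rw [hρ]
  refine ⟨α, β, hg, ?_⟩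
  rw [← holPart_prod497, hg, holPart_cartan162]
  have h0 : Real.exp ((0 : ℝ) / 2) = 1 := by rw [zero_div, Real.exp_zero]
  rw [h0, one_mul]
  have h1 : (((α + β - v : ℝ) : ℂ)) * Complex.I
      = (α : ℂ) * Complex.I + (β : ℂ) * Complex.I + ((-v : ℝ) : ℂ) * Complex.I := by
    push_cast
    ring
  rw [h1, Complex.exp_add, Complex.exp_add]
  ring

theorem yR_mul_yR497 (t u v α β d θ : ℝ)
    (hg : bR 0 u 0 * rotR v * bR 0 t 0 = rotR α * bR 0 d 0 * rotR β) :
    yR497 u θ * yR497 t (θ + v) = yR497 d (θ + α) * rotR (α + β - v) := by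
  unfold yR497
  have h1 : rotR (-θ) * rotR (θ + v) = rotR v := by
    rw [rotR_mul_rotR162]
    congr 1
    ring
  have h2 : rotR (-(θ + α)) * rotR (α + β - v) = rotR β * rotR (-(θ + v)) := by
    rw [rotR_mul_rotR162, rotR_mul_rotR162]
    congr 1
    ring
  calc rotR θ * bR 0 u 0 * rotR (-θ) * (rotR (θ + v) * bR 0 t 0 * rotR (-(θ + v)))
      = rotR θ * (bR 0 u 0 * (rotR (-θ) * rotR (θ + v)) * bR 0 t 0) * rotR (-(θ + v)) := by
        simp only [mul_assoc]
    _ = rotR θ * (rotR α * bR 0 d 0 * rotR β) * rotR (-(θ + v)) := by rw [h1, hg]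
    _ = rotR θ * rotR α * bR 0 d 0 * (rotR β * rotR (-(θ + v))) := by simp only [mul_assoc]
    _ = rotR (θ + α) * bR 0 d 0 * (rotR (-(θ + α)) * rotR (α + β - v)) := by
        rw [rotR_mul_rotR162, h2]
    _ = rotR (θ + α) * bR 0 d 0 * rotR (-(θ + α)) * rotR (α + β - v) := by
        simp only [mul_assoc]

/-! ## 4. The weight factor -/

/-- The sign of the odd part. -/
def sg497 (n : ℤ) : ℂ := if n = 0 then 0 else if n = 1 then -1 else 1

/-- `χ_n(k_{α+β-v}) · nrm(d)`, explicitly. -/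
def wFac497 (n : ℤ) (t u v : ℝ) : ℂ :=
  ((nrm888 n t * nrm888 n u * kerW888 n t u (2 * v) : ℝ) : ℂ)
    + sg497 n * ((Real.sinh (t / 2) * Real.sinh (u / 2) * Real.sin (2 * v) : ℝ) : ℂ) * Complex.I

theorem ker_eq497 (t u φ : ℝ) :
    Real.cosh (t / 2) * Real.cosh (u / 2)
        * (1 + Real.tanh (t / 2) * Real.tanh (u / 2) * Real.cos φ)
      = Real.cosh (t / 2) * Real.cosh (u / 2)
        + Real.sinh (t / 2) * Real.sinh (u / 2) * Real.cos φ := by
  rw [Real.tanh_eq_sinh_div_cosh, Real.tanh_eq_sinh_div_cosh]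
  have h1 : Real.cosh (t / 2) ≠ 0 := (Real.cosh_pos _).ne'
  have h2 : Real.cosh (u / 2) ≠ 0 := (Real.cosh_pos _).ne'
  field_simp

theorem wFac_eq497 (n : ℤ) (hn : n = 0 ∨ n = 1 ∨ n = -1) (t u v γ d : ℝ)
    (hW : Complex.exp (((γ : ℝ) : ℂ) * Complex.I) * ((Real.cosh (d / 2) : ℝ) : ℂ)
      = wOne497 t u v) :
    wtChar n (rotR γ) * ((nrm888 n d : ℝ) : ℂ) = wFac497 n t u v := by
  unfold wtChar wFac497
  rw [holPart_rotR497]
  rcases hn with rfl | rfl | rfl
  · simp [nrm888, kerW888, sg497]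
  · have h10 : (1 : ℤ) ≠ 0 := one_ne_zero
    simp only [nrm888, kerW888, sg497, h10, if_false, zpow_one, if_true]
    rw [hW, ker_eq497]
    unfold wOne497
    push_cast
    ring
  · have h10 : (-1 : ℤ) ≠ 0 := by norm_num
    have h11 : (-1 : ℤ) ≠ 1 := by norm_num
    simp only [nrm888, kerW888, sg497, h10, h11, if_false, zpow_neg_one]
    have hc : (Complex.exp (((γ : ℝ) : ℂ) * Complex.I))⁻¹ * ((Real.cosh (d / 2) : ℝ) : ℂ)
        = (starRingEnd ℂ) (Complex.exp (((γ : ℝ) : ℂ) * Complex.I)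
          * ((Real.cosh (d / 2) : ℝ) : ℂ)) := by
      rw [map_mul, Complex.conj_ofReal, ← Complex.exp_conj, map_mul, Complex.conj_ofReal,
        Complex.conj_I, mul_neg, Complex.exp_neg]
    rw [hc, hW, ker_eq497]
    unfold wOne497
    rw [map_sub, map_mul, Complex.conj_ofReal, Complex.conj_ofReal, Complex.conj_I]
    push_cast
    ring

/-! ## 5. The eigen-equation -/

section Eigen

variable {n : ℤ} {e : GL (Fin 2) ℝ → ℂ} {m : ℝ → ℂ}

theorem eig497 (h : IsCircEigen888 n e m) (t : ℝ) (ht : 0 < t) (x : GL (Fin 2) ℝ) :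
    (∫ θ in (0 : ℝ)..(2 * Real.pi), e (x * yR497 t θ))
      = ((2 * Real.pi : ℝ) : ℂ) * m t * e x :=
  h.eig t ht (yR497 t) (coe_yR497 t) x

theorem shift497 (e : GL (Fin 2) ℝ → ℂ) (x : GL (Fin 2) ℝ) (d α : ℝ) :
    (∫ θ in (0 : ℝ)..(2 * Real.pi), e (x * yR497 d (θ + α)))
      = ∫ θ in (0 : ℝ)..(2 * Real.pi), e (x * yR497 d θ) := by
  have hper : Function.Periodic (fun θ : ℝ => e (x * yR497 d θ)) (2 * Real.pi) := by
    intro θ
    show e (x * yR497 d (θ + 2 * Real.pi)) = e (x * yR497 d θ)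
    rw [yR_periodic497 d θ]
  rw [intervalIntegral.integral_comp_add_right (fun θ : ℝ => e (x * yR497 d θ)) α]
  have h1 := hper.intervalIntegral_add_eq (0 + α) 0
  have h2 : 0 + α + 2 * Real.pi = 2 * Real.pi + α := by ring
  rw [h2, zero_add (2 * Real.pi)] at h1
  exact h1

theorem shift'497 (e : GL (Fin 2) ℝ → ℂ) (x : GL (Fin 2) ℝ) (d α : ℝ) :
    (∫ θ in (0 : ℝ)..(2 * Real.pi), e (x * yR497 d (α + θ)))
      = ∫ θ in (0 : ℝ)..(2 * Real.pi), e (x * yR497 d θ) := by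
  rw [← shift497 e x d α]
  simp_rw [add_comm α]

theorem nrm_pos497 (n : ℤ) (d : ℝ) : 0 < nrm888 n d := by
  unfold nrm888
  split_ifs
  · exact one_pos
  · exact Real.cosh_pos _

theorem nrm_zero497 (n : ℤ) : nrm888 n 0 = 1 := by
  unfold nrm888
  split_ifs
  · rfl
  · rw [zero_div, Real.cosh_zero]

theorem continuous_nrm497 (n : ℤ) : Continuous (nrm888 n) := by
  unfold nrm888
  split_ifs
  · exact continuous_const
  · exact Real.continuous_cosh.comp (continuous_id.div_const 2)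

theorem mtOf_mul_nrm497 (n : ℤ) (m : ℝ → ℂ) (d : ℝ) (hd : 0 < d) :
    mtOf888 n m d * ((nrm888 n d : ℝ) : ℂ) = m d := by
  unfold mtOf888
  rw [if_pos hd]
  have h0 : ((nrm888 n d : ℝ) : ℂ) ≠ 0 := Complex.ofReal_ne_zero.2 (nrm_pos497 n d).ne'
  field_simp

theorem mtOf_zero497 (n : ℤ) (m : ℝ → ℂ) : mtOf888 n m 0 = 1 := by
  unfold mtOf888
  rw [if_neg (lt_irrefl 0)]

theorem mfun497 (h : IsCircEigen888 n e m) (d : ℝ) (hd : 0 ≤ d) (x : GL (Fin 2) ℝ) :
    (∫ θ in (0 : ℝ)..(2 * Real.pi), e (x * yR497 d θ))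
      = ((2 * Real.pi : ℝ) : ℂ) * (mtOf888 n m d * ((nrm888 n d : ℝ) : ℂ)) * e x := by
  rcases hd.eq_or_lt with hd0 | hd0
  · subst hd0
    simp_rw [yR_zero497, mul_one]
    rw [intervalIntegral.integral_const, mtOf_zero497, nrm_zero497, sub_zero, Complex.real_smul]
    push_cast
    ring
  · rw [mtOf_mul_nrm497 n m d hd0]
    exact eig497 h d hd0 x

theorem inner497 (h : IsCircEigen888 n e m) (hn : n = 0 ∨ n = 1 ∨ n = -1) (x : GL (Fin 2) ℝ)
    (t u v : ℝ) (ht : 0 < t) (hu : 0 < u) :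
    (∫ θ in (0 : ℝ)..(2 * Real.pi), e (x * (yR497 u θ * yR497 t (θ + v))))
      = ((2 * Real.pi : ℝ) : ℂ) * e x * wFac497 n t u v
        * mtOf888 n m (Real.arcosh (rho888 t u (2 * v))) := by
  obtain ⟨α, β, hg, hW⟩ := cartan_prod497 t u v
  have hd0 : 0 ≤ Real.arcosh (rho888 t u (2 * v)) :=
    Real.arcosh_nonneg (rho_ge_one497 t u (2 * v) ht hu)
  have h1 : ∀ θ : ℝ, e (x * (yR497 u θ * yR497 t (θ + v)))
      = wtChar n (rotR (α + β - v))
        * e (x * yR497 (Real.arcosh (rho888 t u (2 * v))) (θ + α)) := by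
    intro θ
    rw [yR_mul_yR497 t u v α β _ θ hg, ← mul_assoc, h.wt _ _ (inSO2_rotR497 _)]
  simp_rw [h1]
  rw [intervalIntegral.integral_const_mul, shift497, mfun497 h _ hd0 x,
    ← wFac_eq497 n hn t u v _ _ hW]
  ring

end Eigen

/-! ## 6. One-variable calculus -/

/-- `∫₀^{2π} F(2v) dv = ∫₀^{2π} F(φ) dφ` for a continuous `2π`-periodic `F`. -/
theorem double497 (F : ℝ → ℂ) (hF : Continuous F) (hper : Function.Periodic F (2 * Real.pi)) :
    (∫ v in (0 : ℝ)..(2 * Real.pi), F (2 * v)) = ∫ φ in (0 : ℝ)..(2 * Real.pi), F φ := by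
  rw [intervalIntegral.integral_comp_mul_left (fun x => F x) (two_ne_zero : (2 : ℝ) ≠ 0),
    mul_zero]
  have h1 : (∫ x in (0 : ℝ)..(2 * (2 * Real.pi)), F x)
      = (∫ x in (0 : ℝ)..(2 * Real.pi), F x) + ∫ x in (2 * Real.pi)..(2 * (2 * Real.pi)), F x :=
    (intervalIntegral.integral_add_adjacent_intervals (hF.intervalIntegrable _ _)
      (hF.intervalIntegrable _ _)).symm
  have h2 := hper.intervalIntegral_add_eq (2 * Real.pi) 0
  have h3 : 2 * Real.pi + 2 * Real.pi = 2 * (2 * Real.pi) := by ring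
  rw [h3, zero_add] at h2
  rw [h1, h2, Complex.real_smul]
  push_cast
  ring

/-- The integral over a period of a function which is odd under `φ ↦ 2π - φ` vanishes. -/
theorem odd497 (F : ℝ → ℂ) (hodd : ∀ φ : ℝ, F (2 * Real.pi - φ) = -F φ) :
    (∫ φ in (0 : ℝ)..(2 * Real.pi), F φ) = 0 := by
  have h1 := intervalIntegral.integral_comp_sub_left (a := (0 : ℝ)) (b := 2 * Real.pi)
    (fun x => F x) (2 * Real.pi)
  rw [sub_self, sub_zero] at h1
  simp_rw [hodd] at h1
  rw [intervalIntegral.integral_neg] at h1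
  have h2 : (2 : ℂ) * (∫ φ in (0 : ℝ)..(2 * Real.pi), F φ) = 0 := by
    linear_combination -h1
  rcases mul_eq_zero.1 h2 with h3 | h3
  · exact absurd h3 two_ne_zero
  · exact h3

theorem rho_periodic497 (t u : ℝ) : Function.Periodic (rho888 t u) (2 * Real.pi) := by
  intro φ
  unfold rho888
  rw [Real.cos_add_two_pi]

theorem rho_reflect497 (t u φ : ℝ) : rho888 t u (2 * Real.pi - φ) = rho888 t u φ := by
  unfold rho888
  rw [Real.cos_two_pi_sub]

theorem continuous_rho497 (t u : ℝ) : Continuous (rho888 t u) := by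
  unfold rho888
  fun_prop

theorem kerW_periodic497 (n : ℤ) (t u : ℝ) : Function.Periodic (kerW888 n t u) (2 * Real.pi) := by
  intro φ
  unfold kerW888
  rw [Real.cos_add_two_pi]

theorem continuous_kerW497 (n : ℤ) (t u : ℝ) : Continuous (kerW888 n t u) := by
  unfold kerW888
  split_ifs
  · exact continuous_const
  · fun_prop

/-! ## 7. Continuity of the normalised eigenvalue function -/

section Cont

variable {n : ℤ} {e : GL (Fin 2) ℝ → ℂ} {m : ℝ → ℂ}

theorem continuous_yR_comp497 {X : Type*} [TopologicalSpace X] {f g : X → ℝ}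
    (hf : Continuous f) (hg : Continuous g) : Continuous (fun p : X => yR497 (f p) (g p)) := by
  have h1 : (fun p : X => yR497 (f p) (g p))
      = (fun p : ℝ × ℝ => yR497 p.1 p.2) ∘ (fun p : X => (f p, g p)) := rfl
  rw [h1]
  exact continuous_yR497.comp (hf.prodMk hg)

/-- The continuous function on `ℝ` which is the normalised eigenvalue function on `[0, ∞)`. -/
def mc497 (n : ℤ) (e : GL (Fin 2) ℝ → ℂ) (x : GL (Fin 2) ℝ) (d : ℝ) : ℂ :=
  (∫ θ in (0 : ℝ)..(2 * Real.pi), e (x * yR497 d θ))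
    / (((2 * Real.pi : ℝ) : ℂ) * e x * ((nrm888 n d : ℝ) : ℂ))

theorem continuous_mc497 (h : IsCircEigen888 n e m) (x : GL (Fin 2) ℝ) (hx : e x ≠ 0) :
    Continuous (mc497 n e x) := by
  unfold mc497
  have hnum : Continuous (fun d : ℝ => ∫ θ in (0 : ℝ)..(2 * Real.pi), e (x * yR497 d θ)) := by
    apply intervalIntegral.continuous_parametric_intervalIntegral_of_continuous'
      (f := fun (d θ : ℝ) => e (x * yR497 d θ))
    exact h.cont.comp (continuous_const.mul (continuous_yR_comp497 continuous_fst continuous_snd))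
  have hden : Continuous (fun d : ℝ =>
      ((2 * Real.pi : ℝ) : ℂ) * e x * ((nrm888 n d : ℝ) : ℂ)) :=
    continuous_const.mul (Complex.continuous_ofReal.comp (continuous_nrm497 n))
  refine hnum.div hden ?_
  intro d
  have h1 : ((2 * Real.pi : ℝ) : ℂ) ≠ 0 :=
    Complex.ofReal_ne_zero.2 (mul_pos two_pos Real.pi_pos).ne'
  have h2 : ((nrm888 n d : ℝ) : ℂ) ≠ 0 := Complex.ofReal_ne_zero.2 (nrm_pos497 n d).ne'
  exact mul_ne_zero (mul_ne_zero h1 hx) h2

theorem mtOf_eq_mc497 (h : IsCircEigen888 n e m) (x : GL (Fin 2) ℝ) (hx : e x ≠ 0) (d : ℝ)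
    (hd : 0 ≤ d) : mtOf888 n m d = mc497 n e x d := by
  unfold mc497
  rw [mfun497 h d hd x]
  have h1 : ((2 * Real.pi : ℝ) : ℂ) ≠ 0 :=
    Complex.ofReal_ne_zero.2 (mul_pos two_pos Real.pi_pos).ne'
  have h2 : ((nrm888 n d : ℝ) : ℂ) ≠ 0 := Complex.ofReal_ne_zero.2 (nrm_pos497 n d).ne'
  field_simp

/-- **(A1) `MtContC888`**: the normalised eigenvalue function is continuous on `[0, ∞)`. -/
theorem mtContC497 : MtContC888 := by
  intro n _ e m h
  obtain ⟨x, hx⟩ := h.ne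
  exact (continuous_mc497 h x hx).continuousOn.congr (fun d hd => mtOf_eq_mc497 h x hx d hd)

theorem continuous_H497 (h : IsCircEigen888 n e m) (t u : ℝ) (ht : 0 < t) (hu : 0 < u) :
    Continuous (fun φ : ℝ => mtOf888 n m (Real.arcosh (rho888 t u φ))) := by
  obtain ⟨x, hx⟩ := h.ne
  have h1 : (fun φ : ℝ => mtOf888 n m (Real.arcosh (rho888 t u φ)))
      = fun φ : ℝ => mc497 n e x (Real.arcosh (rho888 t u φ)) := by
    funext φ
    exact mtOf_eq_mc497 h x hx _ (Real.arcosh_nonneg (rho_ge_one497 t u φ ht hu))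
  rw [h1]
  exact (continuous_mc497 h x hx).comp
    (Real.continuousOn_arcosh.comp_continuous (continuous_rho497 t u)
      (fun φ => rho_ge_one497 t u φ ht hu))

end Cont

/-! ## 8. The product formula -/

/-- `φ ↦ μ(d(t, u, φ))`. -/
def hF497 (n : ℤ) (m : ℝ → ℂ) (t u φ : ℝ) : ℂ := mtOf888 n m (Real.arcosh (rho888 t u φ))

/-- The even integrand. -/
def fEven497 (n : ℤ) (m : ℝ → ℂ) (t u φ : ℝ) : ℂ :=
  ((kerW888 n t u φ : ℝ) : ℂ) * hF497 n m t u φ

/-- The odd integrand. -/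
def fOdd497 (n : ℤ) (m : ℝ → ℂ) (t u φ : ℝ) : ℂ :=
  ((Real.sin φ : ℝ) : ℂ) * hF497 n m t u φ

theorem hF_periodic497 (n : ℤ) (m : ℝ → ℂ) (t u : ℝ) :
    Function.Periodic (hF497 n m t u) (2 * Real.pi) := by
  intro φ
  unfold hF497
  rw [rho_periodic497 t u φ]

theorem hF_reflect497 (n : ℤ) (m : ℝ → ℂ) (t u φ : ℝ) :
    hF497 n m t u (2 * Real.pi - φ) = hF497 n m t u φ := by
  unfold hF497
  rw [rho_reflect497]

theorem fEven_periodic497 (n : ℤ) (m : ℝ → ℂ) (t u : ℝ) :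
    Function.Periodic (fEven497 n m t u) (2 * Real.pi) := by
  intro φ
  unfold fEven497
  rw [kerW_periodic497 n t u φ, hF_periodic497 n m t u φ]

theorem fOdd_periodic497 (n : ℤ) (m : ℝ → ℂ) (t u : ℝ) :
    Function.Periodic (fOdd497 n m t u) (2 * Real.pi) := by
  intro φ
  unfold fOdd497
  rw [Real.sin_add_two_pi, hF_periodic497 n m t u φ]

theorem fOdd_odd497 (n : ℤ) (m : ℝ → ℂ) (t u φ : ℝ) :
    fOdd497 n m t u (2 * Real.pi - φ) = -fOdd497 n m t u φ := by
  unfold fOdd497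
  rw [Real.sin_two_pi_sub, hF_reflect497]
  push_cast
  ring

theorem wFac_decomp497 (n : ℤ) (m : ℝ → ℂ) (t u v : ℝ) (c : ℂ) :
    c * wFac497 n t u v * hF497 n m t u (2 * v)
      = (c * ((nrm888 n t * nrm888 n u : ℝ) : ℂ)) * fEven497 n m t u (2 * v)
        + (c * sg497 n * ((Real.sinh (t / 2) * Real.sinh (u / 2) : ℝ) : ℂ) * Complex.I)
          * fOdd497 n m t u (2 * v) := by
  unfold wFac497 fEven497 fOdd497
  push_cast
  ring

/-- **(A2) `ProdFormC888`**, VERBATIM: the product formula. -/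
theorem prodFormC497 : ProdFormC888 := by
  intro n hn e m h t u ht hu
  obtain ⟨x₀, hx₀⟩ := h.ne
  have hHc : Continuous (hF497 n m t u) := continuous_H497 h t u ht hu
  have hF₁c : Continuous (fEven497 n m t u) :=
    (Complex.continuous_ofReal.comp (continuous_kerW497 n t u)).mul hHc
  have hF₂c : Continuous (fOdd497 n m t u) :=
    (Complex.continuous_ofReal.comp Real.continuous_sin).mul hHc
  have hI₂ : (∫ v in (0 : ℝ)..(2 * Real.pi), fOdd497 n m t u (2 * v)) = 0 := by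
    rw [double497 _ hF₂c (fOdd_periodic497 n m t u)]
    exact odd497 _ (fOdd_odd497 n m t u)
  have hI₁ : (∫ v in (0 : ℝ)..(2 * Real.pi), fEven497 n m t u (2 * v))
      = ∫ φ in (0 : ℝ)..(2 * Real.pi), fEven497 n m t u φ :=
    double497 _ hF₁c (fEven_periodic497 n m t u)
  -- the double integral, first way
  have way1 : (∫ θ' in (0 : ℝ)..(2 * Real.pi), ∫ θ in (0 : ℝ)..(2 * Real.pi),
        e (x₀ * yR497 u θ' * yR497 t θ))
      = ((2 * Real.pi : ℝ) : ℂ) * m t * (((2 * Real.pi : ℝ) : ℂ) * m u * e x₀) := by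
    simp_rw [eig497 h t ht]
    rw [intervalIntegral.integral_const_mul, eig497 h u hu]
  -- the double integral, second way
  have way2 : (∫ θ' in (0 : ℝ)..(2 * Real.pi), ∫ θ in (0 : ℝ)..(2 * Real.pi),
        e (x₀ * yR497 u θ' * yR497 t θ))
      = ∫ v in (0 : ℝ)..(2 * Real.pi),
          ((2 * Real.pi : ℝ) : ℂ) * e x₀ * wFac497 n t u v * hF497 n m t u (2 * v) := by
    have hin : ∀ θ' : ℝ, (∫ θ in (0 : ℝ)..(2 * Real.pi), e (x₀ * yR497 u θ' * yR497 t θ))
        = ∫ v in (0 : ℝ)..(2 * Real.pi), e (x₀ * (yR497 u θ' * yR497 t (θ' + v))) := by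
      intro θ'
      simp_rw [← mul_assoc]
      exact (shift'497 e (x₀ * yR497 u θ') t θ').symm
    simp_rw [hin]
    rw [MeasureTheory.intervalIntegral_intervalIntegral_swap]
    · apply intervalIntegral.integral_congr
      intro v _
      exact inner497 h hn x₀ t u v ht hu
    · have hG : Continuous (Function.uncurry
          (fun θ' v : ℝ => e (x₀ * (yR497 u θ' * yR497 t (θ' + v))))) := by
        apply h.cont.comp
        apply continuous_const.mul
        exact (continuous_yR_comp497 continuous_const continuous_fst).mul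
          (continuous_yR_comp497 continuous_const (continuous_fst.add continuous_snd))
      have hK : IsCompact (Set.uIcc (0 : ℝ) (2 * Real.pi) ×ˢ Set.uIcc (0 : ℝ) (2 * Real.pi)) :=
        isCompact_uIcc.prod isCompact_uIcc
      exact (hG.continuousOn.integrableOn_compact hK).mono_set
        (Set.prod_mono Set.uIoc_subset_uIcc Set.uIoc_subset_uIcc)
  -- the odd part drops out
  have way3 : (∫ v in (0 : ℝ)..(2 * Real.pi),
        ((2 * Real.pi : ℝ) : ℂ) * e x₀ * wFac497 n t u v * hF497 n m t u (2 * v))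
      = (((2 * Real.pi : ℝ) : ℂ) * e x₀ * ((nrm888 n t * nrm888 n u : ℝ) : ℂ))
        * ∫ φ in (0 : ℝ)..(2 * Real.pi), fEven497 n m t u φ := by
    simp_rw [wFac_decomp497]
    rw [intervalIntegral.integral_add, intervalIntegral.integral_const_mul,
      intervalIntegral.integral_const_mul, hI₁, hI₂, mul_zero, add_zero]
    · exact ((hF₁c.comp (continuous_const.mul continuous_id)).const_mul _).intervalIntegrable _ _
    · exact ((hF₂c.comp (continuous_const.mul continuous_id)).const_mul _).intervalIntegrable _ _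
  have h1 : ((2 * Real.pi : ℝ) : ℂ) ≠ 0 :=
    Complex.ofReal_ne_zero.2 (mul_pos two_pos Real.pi_pos).ne'
  have hkey : (∫ φ in (0 : ℝ)..(2 * Real.pi), fEven497 n m t u φ)
      = ((2 * Real.pi : ℝ) : ℂ) * (mtOf888 n m t * mtOf888 n m u) := by
    have h5 := way1.symm.trans (way2.trans way3)
    rw [← mtOf_mul_nrm497 n m t ht, ← mtOf_mul_nrm497 n m u hu] at h5
    have h4 : ((2 * Real.pi : ℝ) : ℂ) * e x₀ * ((nrm888 n t * nrm888 n u : ℝ) : ℂ) ≠ 0 := by
      exact mul_ne_zero (mul_ne_zero h1 hx₀)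
        (Complex.ofReal_ne_zero.2 (mul_pos (nrm_pos497 n t) (nrm_pos497 n u)).ne')
    apply mul_left_cancel₀ h4
    rw [← h5]
    push_cast
    ring
  unfold gT888
  have hfin : (∫ φ in (0 : ℝ)..(2 * Real.pi),
      ((kerW888 n t u φ : ℝ) : ℂ) * mtOf888 n m (Real.arcosh (rho888 t u φ)))
      = ∫ φ in (0 : ℝ)..(2 * Real.pi), fEven497 n m t u φ := rfl
  rw [hfin, hkey]
  push_cast
  field_simp

end Fermat.Agent.LT.T6.H497

end
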